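import Fermat.Agent.LT.A2.WeilLocal

/-!
# Row LT, tower A2, leaf A2.03.4 `WL.LiftBddC`: THE CUT (helper904, sub-architect)

OFF-MAIN.  Definitions only (no `sorry`, nothing assumed).  Vocabulary: byte-identical copies of
`LT/A2/{Spec,Theta,Kernel,WeilLocal}.lean` (helper950@17cdc7aa9), `LT/T1/Spec.lean` (helper54),
`LT/H556/A0.lean` (helper556).

    WL.LiftBddC  ⟸  AdmCompactC + GaussSumC + CharIntZeroC        (`LiftBddTop.lean`, helper904)

## The proof of the top (for the owners of the leaves: what is used, and why it is enough)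

`φ(g) = ∫_{DT} Θ(g, m m_g) χT(m m_g) dm`, `Θ(g, m) = ∑_{ξ ∈ K²} F g m ξ`.

1. Reduction theory (`T1.ReductionC`, `T1.SiegelCompactC`): modulo `GL₂(K)` on the left,
   `g = z a ω`, `z` central, `a = diag(s, 1)` at the infinite places, `ω ∈ Ω` compact,
   `s ≥ s₀ > 0`.  If `g ∉ GL₂(K) GL₂(𝔸)⁺` then `φ(g) = 0` (`IsLift.off`).
2. **`AdmCompactC`**: there is a COMPACT set `C` of pairs such that every `ω ∈ Ω` which lies in
   `GL₂(K) GL₂(𝔸)⁺` has a rational diagonal translate `g₁ = diag(1, α) ω` with an admissible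
   partner `m₁`, `(g₁, m₁) ∈ C`.
3. `a = t(σ) σ`, `σ = √s` (idele, trivial at the finite places), so by `IsStd.diagA`, `IsStd.torA`:
   `|F (z a g₁) (z σ m m₁) ξ| = ‖σ‖_𝔸 |F g₁ (m m₁) (σ ξ)|`, and the pairs `(g₁, m m₁)`, `m ∈ DT`,
   stay in a compact set; `IsStd.decay` gives `B`, `A`, `δ`.
4. **`GaussSumC`**: `σ^N ∑_{ξ ∈ K² ∖ 0, ξ_fin ∈ B} exp(-δ σ² ∑_w (|ξ₁|_w² + |ξ₂|_w²))` is bounded
   for `σ ≥ σ₀` (the `ξ` with finite part in the compact `B` have bounded denominators).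
5. **`CharIntZeroC`**: the term `ξ = 0` is `F g m_g 0 · χT(m_g) · ∫_{DT} χT = 0`.
-/

set_option autoImplicit false

open IsDedekindDomain NumberField AutomorphicForm MeasureTheory
open scoped MatrixGroups Topology

noncomputable section

namespace Fermat.Agent.LT.A2.H904

open Fermat.Agent.LT.H130 Fermat.Agent.LT.H556

/-- The Gaussian majorant of step 4: for `ξ ∈ K²`,
`1_B(ξ_fin) · exp(-δ σ² ∑_w (‖ξ₁‖_w² + ‖ξ₂‖_w²))`
(`‖·‖_w` = the norm of the completion at the infinite place `w`, NOT normalised). -/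
def gaussT {K : Type} [Field K] [NumberField K]
    (B : Set (FiniteAdeleRing (𝓞 K) K × FiniteAdeleRing (𝓞 K) K)) (δ σ : ℝ) (ξ : K × K) : ℝ :=
  Set.indicator {ξ : K × K | ((ratV ξ).1.2, (ratV ξ).2.2) ∈ B}
    (fun ξ : K × K => Real.exp (-(δ * σ ^ 2 *
      ∑ w : InfinitePlace K, (‖(ratV ξ).1.1 w‖ ^ 2 + ‖(ratV ξ).2.1 w‖ ^ 2)))) ξ

/-- **A2.03.4.1 ADM-COMPACT.**  Over a compact set `Ω` the elements of `GL₂(K) GL₂(𝔸_K)⁺` have
rational diagonal translates with admissible partners in a COMPACT set of pairs.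
Proof: `GL₂(𝔸_K)⁺` is open (`TorusOpenC`), `P = GL₂(K) GL₂(𝔸_K)⁺` is open and closed
(`g₀ ∉ P ⇒ g₀ GL₂(𝔸_K)⁺ ∩ P = ∅`: the torus is a group), `det (diag(1, det γ) ω) = det (γ ω)`;
for `ω₀ ∈ Ω ∩ P` choose `α₀`, `m₀`, a compact neighbourhood `V₀` of `m₀` (`T1.LocCompC`) and the
neighbourhood `U₀` of `diag(1, α₀) ω₀` of `TorusOpenC`; finite subcover of `Ω`;
`C = ⋃_i (diag(1, α_i) Ω) × V_i`. -/
def AdmCompactC : Prop :=
  WL.TorusOpenC →
  ∀ (K : Type) [Field K] [NumberField K] (t n : K), (∀ x : K, x ^ 2 - t * x + n ≠ 0) →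
    T1.LocCompC K →
    ∀ Ω : Set (A0.G K), IsCompact Ω →
      ∃ C : Set (A0.G K × A0.G K), IsCompact C ∧
        ∀ ω ∈ Ω, (∃ γ : GL (Fin 2) K, InGPlus t n (ratG γ * ω)) →
          ∃ (α : K) (γ : GL (Fin 2) K) (m : A0.G K),
            (γ : Matrix (Fin 2) (Fin 2) K) = !![1, 0; 0, α] ∧
            Adm t n (ratG γ * ω) m ∧ (ratG γ * ω, m) ∈ C

/-- **A2.03.4.2 GAUSS-SUM.**  Gaussian sums over the rational vectors with finite part in a
compact set: summable, and `σ^N ·` (the sum over `ξ ≠ 0`) is bounded on `σ ≥ σ₀`.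
Proof: `B` compact `⇒` there is `M ≥ 1` with `M ξ ∈ 𝒪_K²` for all `ξ` with `ξ_fin ∈ B`
(the integral finite adeles are open, `𝔸_f = ⋃_M M⁻¹ ∏ 𝒪_v`); `𝒪_K²` is a lattice in `K_∞²`
(`NumberField.mixedEmbedding`, `ZLattice.summable_norm_rpow`); for `0 ≠ x ∈ 𝒪_K`,
`∏_w ‖x‖_w^{mult w} = |N x| ≥ 1`, so `∑_w (‖ξ₁‖_w² + ‖ξ₂‖_w²) ≥ ρ > 0` on `ξ ≠ 0`, and
`exp(-δ σ² Q) ≤ exp(-δ σ₀² Q) exp(-δ (σ² - σ₀²) ρ)`. -/
def GaussSumC : Prop :=
  ∀ (K : Type) [Field K] [NumberField K]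
    (B : Set (FiniteAdeleRing (𝓞 K) K × FiniteAdeleRing (𝓞 K) K)), IsCompact B →
    ∀ (N : ℕ) (δ σ₀ : ℝ), 0 < δ → 0 < σ₀ → ∃ C : ℝ, ∀ σ : ℝ, σ₀ ≤ σ →
      Summable (gaussT B δ σ) ∧
      σ ^ N * ∑' ξ : K × K, Set.indicator {ξ : K × K | ξ ≠ 0} (gaussT B δ σ) ξ ≤ C

/-- **A2.03.4.3 CHAR-INT-ZERO.**  The torus character is integrable on the fundamental domain
`DT` and its integral vanishes.
Proof: `‖χT‖ = 1` on the torus (`fin_order`), `χT` is continuous on the torus (`cont`), `DT` is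
Borel, contained in a compact set (`dom_compact`, `compact_lt`); the countable group
`Γ = T¹(K)` acts on `GL₂(𝔸_K)` by left translations preserving `μT` (`inv`), `DT` is a
fundamental domain (`dom_fund`, `carried`), so is `m' DT` for `m' ∈ T¹(𝔸_K)` (`T` is
commutative), `1_{T¹} χT` is `Γ`-invariant (`rat`, `mul`), hence
`χT(m') ∫_{DT} χT = ∫_{m' DT} χT = ∫_{DT} χT` (`IsFundamentalDomain.setIntegral_eq`), and
`χT(m') ≠ 1` for some `m'` (`nontriv`). -/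
def CharIntZeroC : Prop :=
  ∀ (K : Type) [Field K] [NumberField K] (D : KData K), T1.LocCompC K → D.Good →
    (letI : MeasurableSpace (A0.G K) := borel (A0.G K)
     IntegrableOn D.χT D.DT D.μT) ∧
    D.intT D.DT D.χT = 0

end Fermat.Agent.LT.A2.H904

end
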