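import Fermat.Agent.LT.A2.H904.LiftBddTop
import Fermat.Agent.LT.A2.H926.AdmCompact
import Fermat.Agent.LT.A2.H362.CharIntZero
import Fermat.Agent.LT.A2.H139.GaussSum

/-!
# Row LT, tower A2, leaf A2.03.4 `WL.LiftBddC`: CLOSED (integration, helper904)

OFF-MAIN.  Byte-identical copies of the volunteers' files, rebuilt here:

* `LT/A2/H926/AdmCompact.lean`  (helper926@3829c9173, A2.03.4.1 `AdmCompactC`),
* `LT/A2/H139/{GaussDen,GaussLat,GaussSum}.lean` (helper139@30bb4a3b7, A2.03.4.2 `GaussSumC`),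
* `LT/A2/H362/CharIntZero.lean` (helper362@cd8cedfe0, A2.03.4.3 `CharIntZeroC`).

`liftBddC904 : WL.LiftBddC`, the frozen Prop of `LT/A2/WeilLocal.lean` (helper950@17cdc7aa9)
VERBATIM and without any hypothesis beyond those inside the Prop.
-/

set_option autoImplicit false

noncomputable section

namespace Fermat.Agent.LT.A2.H904

/-- A2.03.4 from the sub-leaf A2.03.4.2 `GaussSumC` alone. -/
theorem liftBdd_of_gaussSum (hGS : GaussSumC) : WL.LiftBddC :=
  liftBdd_of_leaves Fermat.Agent.LT.A2.H926.admCompactC_926 hGS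
    Fermat.Agent.LT.A2.H362.charIntZeroC362

/-- **A2.03.4 `WL.LiftBddC`, CLOSED**: the theta lift of standard good data is bounded. -/
theorem liftBddC904 : WL.LiftBddC :=
  liftBdd_of_gaussSum Fermat.Agent.LT.A2.H139.gaussSumC139

end Fermat.Agent.LT.A2.H904

end
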