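import Fermat.Agent.LT.A2.H904.LiftBddSpec

/-!
# Row LT, tower A2, leaf A2.03.4 `WL.LiftBddC`: elements and algebra (helper904)

OFF-MAIN.  The diagonal elements `tSL a = diag(a, a⁻¹)`, `dOne a = diag(1, a)`, `cen a = diag(a, a)`
of `GL₂(𝔸_K)` for an idele `a`, the torus is closed under products, central elements lie in the
torus, and the idele `posId σ` (`σ` at every infinite place, `1` at the finite places) of a totally
complex field.
-/

set_option autoImplicit false

open IsDedekindDomain NumberField AutomorphicForm MeasureTheory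
open scoped MatrixGroups Topology

noncomputable section

namespace Fermat.Agent.LT.A2.H904

open Fermat.Agent.LT.H130 Fermat.Agent.LT.H556

variable {K : Type} [Field K] [NumberField K]

/-! ## Diagonal elements -/

/-- `diag(a, b)` for ideles `a`, `b`. -/
def dg (a b : (A0.Adl K)ˣ) : A0.G K :=
  ⟨!![(a : A0.Adl K), 0; 0, (b : A0.Adl K)],
    !![((a⁻¹ : (A0.Adl K)ˣ) : A0.Adl K), 0; 0, ((b⁻¹ : (A0.Adl K)ˣ) : A0.Adl K)],
    by ext i j; fin_cases i <;> fin_cases j <;> simp [Matrix.mul_apply, Fin.sum_univ_two],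
    by ext i j; fin_cases i <;> fin_cases j <;> simp [Matrix.mul_apply, Fin.sum_univ_two]⟩

theorem dg_val (a b : (A0.Adl K)ˣ) :
    ((dg a b : A0.G K) : Matrix (Fin 2) (Fin 2) (A0.Adl K))
      = !![(a : A0.Adl K), 0; 0, (b : A0.Adl K)] := rfl

theorem dg_mul (a b a' b' : (A0.Adl K)ˣ) : dg a b * dg a' b' = dg (a * a') (b * b') := by
  apply Units.ext
  ext i j
  fin_cases i <;> fin_cases j <;>
    simp [dg_val, Matrix.mul_apply, Fin.sum_univ_two, Units.val_mul]

theorem dg_one : dg (1 : (A0.Adl K)ˣ) 1 = 1 := by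
  apply Units.ext
  ext i j
  fin_cases i <;> fin_cases j <;> simp [dg_val]

theorem dg_inv (a b : (A0.Adl K)ˣ) : (dg a b)⁻¹ = dg a⁻¹ b⁻¹ := by
  rw [inv_eq_iff_mul_eq_one, dg_mul]
  simp [dg_one]

theorem det_dg (a b : (A0.Adl K)ˣ) : Matrix.GeneralLinearGroup.det (dg a b) = a * b := by
  apply Units.ext
  simp [Matrix.GeneralLinearGroup.val_det_apply, dg_val, Matrix.det_fin_two_of]

/-- `t(a) = diag(a, a⁻¹)`. -/
def tSL (a : (A0.Adl K)ˣ) : A0.G K := dg a a⁻¹

/-- `d(a) = diag(1, a)`. -/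
def dOne (a : (A0.Adl K)ˣ) : A0.G K := dg 1 a

/-- The scalar matrix `a`. -/
def cen (a : (A0.Adl K)ˣ) : A0.G K := dg a a

theorem isDiagSLA_tSL (a : (A0.Adl K)ˣ) : WL.IsDiagSLA (tSL a) a := rfl

theorem isDiagOneA_dOne (a : (A0.Adl K)ˣ) : WL.IsDiagOneA (dOne a) a := by
  unfold WL.IsDiagOneA dOne
  rw [dg_val]
  simp

theorem det_tSL (a : (A0.Adl K)ˣ) : Matrix.GeneralLinearGroup.det (tSL a) = 1 := by
  rw [tSL, det_dg]; simp

theorem det_cen (a : (A0.Adl K)ˣ) : Matrix.GeneralLinearGroup.det (cen a) = a * a := by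
  rw [cen, det_dg]

theorem det_dOne (a : (A0.Adl K)ˣ) : Matrix.GeneralLinearGroup.det (dOne a) = a := by
  rw [dOne, det_dg]; simp

theorem cen_eq (a : (A0.Adl K)ˣ) : cen a = tSL a * dOne (a * a) := by
  rw [cen, tSL, dOne, dg_mul]
  congr 1
  · simp
  · simp

theorem cen_mul (a b : (A0.Adl K)ˣ) : cen a * cen b = cen (a * b) := dg_mul a a b b

theorem cen_inv (a : (A0.Adl K)ˣ) : (cen a)⁻¹ = cen a⁻¹ := dg_inv a a

/-- Scalar matrices are central. -/
theorem cen_comm (a : (A0.Adl K)ˣ) (g : A0.G K) : cen a * g = g * cen a := by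
  apply Units.ext
  ext i j
  fin_cases i <;> fin_cases j <;>
    simp [cen, dg_val, Matrix.mul_apply, Fin.sum_univ_two, Units.val_mul, mul_comm]

/-- Diagonal matrices commute. -/
theorem dg_comm (a b a' b' : (A0.Adl K)ˣ) : dg a b * dg a' b' = dg a' b' * dg a b := by
  rw [dg_mul, dg_mul, mul_comm a, mul_comm b]

/-! ## The torus -/

theorem inTorus_mul {t n : K} {m m' : A0.G K} (h : InTorus t n m) (h' : InTorus t n m') :
    InTorus t n (m * m') := by
  obtain ⟨a, b, hab⟩ := h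
  obtain ⟨a', b', hab'⟩ := h'
  refine ⟨a * a' - algebraMap K (A0.Adl K) n * b * b',
    a * b' + b * a' + algebraMap K (A0.Adl K) t * b * b', ?_⟩
  rw [Units.val_mul, hab, hab']
  ext i j
  fin_cases i <;> fin_cases j <;>
    simp [torMat, Matrix.mul_apply, Fin.sum_univ_two] <;> ring

theorem inTorus_cen (t n : K) (a : (A0.Adl K)ˣ) : InTorus t n (cen a) := by
  refine ⟨(a : A0.Adl K), 0, ?_⟩
  rw [cen, dg_val]
  ext i j
  fin_cases i <;> fin_cases j <;> simp [torMat]

theorem inTorus_one (t n : K) : InTorus t n (1 : A0.G K) := by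
  have := inTorus_cen (K := K) t n 1
  rwa [cen, dg_one] at this

/-- The torus is commutative. -/
theorem inTorus_comm {t n : K} {m m' : A0.G K} (h : InTorus t n m) (h' : InTorus t n m') :
    m * m' = m' * m := by
  obtain ⟨a, b, hab⟩ := h
  obtain ⟨a', b', hab'⟩ := h'
  apply Units.ext
  rw [Units.val_mul, Units.val_mul, hab, hab']
  ext i j
  fin_cases i <;> fin_cases j <;>
    simp [torMat, Matrix.mul_apply, Fin.sum_univ_two] <;> ring

/-- `actV` of a scalar matrix. -/
theorem actV_cen (a : (A0.Adl K)ˣ) (ξ : A0.Adl K × A0.Adl K) :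
    actV (cen a) ξ = (a : A0.Adl K) • ξ := by
  unfold actV
  rw [cen, dg_val]
  ext <;> simp

theorem actV_cen_inv_smul (a : (A0.Adl K)ˣ) (ξ : A0.Adl K × A0.Adl K) :
    actV (cen a)⁻¹ ((a : A0.Adl K) • ξ) = ξ := by
  rw [cen_inv, actV_cen, smul_smul]
  simp

theorem actV_zero (m : A0.G K) : actV m (0 : A0.Adl K × A0.Adl K) = 0 := by
  unfold actV
  ext <;> simp

end Fermat.Agent.LT.A2.H904

end
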