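import Fermat.Agent.LT.A2.H904.LiftBddScale

/-!
# Row LT, tower A2, leaf A2.03.4 `WL.LiftBddC`: auxiliary lemmas of the top (helper904)

OFF-MAIN.  The Gaussian majorant from `IsStd.decay`, rational diagonal matrices commute with the
diagonal elements, splitting of a sum at `ξ = 0`, the set `GL₂(K) GL₂(𝔸_K)⁺` and central
translations.
-/

set_option autoImplicit false

open IsDedekindDomain NumberField AutomorphicForm MeasureTheory
open scoped MatrixGroups Topology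

noncomputable section

namespace Fermat.Agent.LT.A2.H904

open Fermat.Agent.LT.H130 Fermat.Agent.LT.H556

variable {K : Type} [Field K] [NumberField K]

/-- The Gaussian majorant: the bound of `IsStd.decay` at the vector `σ ξ`, `ξ ∈ K²`. -/
theorem gauss_le (hcpx : ∀ u : InfinitePlace K, u.IsComplex) (D : KData K)
    {B : Set (FiniteAdeleRing (𝓞 K) K × FiniteAdeleRing (𝓞 K) K)} {A δ : ℝ}
    {p : A0.G K × A0.G K}
    (hdec : ∀ ξ : A0.Adl K × A0.Adl K,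
        ((ξ.1.2, ξ.2.2) ∉ B → D.F p.1 p.2 ξ = 0) ∧
        ‖D.F p.1 p.2 ξ‖
          ≤ A * Real.exp (-δ * ∑ w : InfinitePlace K, (‖ξ.1.1 w‖ ^ 2 + ‖ξ.2.1 w‖ ^ 2)))
    (σ : ℝ) (hσ : 0 < σ) (ξ : K × K) :
    ‖D.F p.1 p.2 (((posId hcpx (posUnit σ hσ) : (A0.Adl K)ˣ) : A0.Adl K) • ratV ξ)‖
      ≤ |A| * gaussT B δ σ ξ := by
  set σU := posId hcpx (posUnit σ hσ) with hσU
  set x : A0.Adl K × A0.Adl K := ((σU : (A0.Adl K)ˣ) : A0.Adl K) • ratV ξ with hx
  have hx1 : ∀ w : InfinitePlace K, ‖x.1.1 w‖ = σ * ‖(ratV ξ).1.1 w‖ := by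
    intro w
    change ‖((σU : (A0.Adl K)ˣ) : A0.Adl K).1 w * (ratV ξ).1.1 w‖ = _
    rw [norm_mul, hσU, norm_posId_fst, norm_posUnit]
  have hx2 : ∀ w : InfinitePlace K, ‖x.2.1 w‖ = σ * ‖(ratV ξ).2.1 w‖ := by
    intro w
    change ‖((σU : (A0.Adl K)ˣ) : A0.Adl K).1 w * (ratV ξ).2.1 w‖ = _
    rw [norm_mul, hσU, norm_posId_fst, norm_posUnit]
  have hxf1 : x.1.2 = (ratV ξ).1.2 := by
    change ((σU : (A0.Adl K)ˣ) : A0.Adl K).2 * (ratV ξ).1.2 = _
    rw [hσU, posId_snd, one_mul]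
  have hxf2 : x.2.2 = (ratV ξ).2.2 := by
    change ((σU : (A0.Adl K)ˣ) : A0.Adl K).2 * (ratV ξ).2.2 = _
    rw [hσU, posId_snd, one_mul]
  obtain ⟨h0, hle⟩ := hdec x
  by_cases hB : ((ratV ξ).1.2, (ratV ξ).2.2) ∈ B
  · have hg : gaussT B δ σ ξ = Real.exp (-(δ * σ ^ 2 *
        ∑ w : InfinitePlace K, (‖(ratV ξ).1.1 w‖ ^ 2 + ‖(ratV ξ).2.1 w‖ ^ 2))) := by
      unfold gaussT
      rw [Set.indicator_of_mem]
      exact hB
    have hsum : ∑ w : InfinitePlace K, (‖x.1.1 w‖ ^ 2 + ‖x.2.1 w‖ ^ 2)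
        = σ ^ 2 * ∑ w : InfinitePlace K, (‖(ratV ξ).1.1 w‖ ^ 2 + ‖(ratV ξ).2.1 w‖ ^ 2) := by
      rw [Finset.mul_sum]
      refine Finset.sum_congr rfl fun w _ => ?_
      rw [hx1 w, hx2 w]
      ring
    rw [hg]
    calc ‖D.F p.1 p.2 x‖
        ≤ A * Real.exp (-δ * ∑ w : InfinitePlace K, (‖x.1.1 w‖ ^ 2 + ‖x.2.1 w‖ ^ 2)) := hle
      _ ≤ |A| * Real.exp (-δ * ∑ w : InfinitePlace K, (‖x.1.1 w‖ ^ 2 + ‖x.2.1 w‖ ^ 2)) :=
          mul_le_mul_of_nonneg_right (le_abs_self A) (Real.exp_pos _).le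
      _ = _ := by
          rw [hsum]
          congr 2
          ring
  · have hg : gaussT B δ σ ξ = 0 := by
      unfold gaussT
      rw [Set.indicator_of_notMem]
      exact hB
    rw [hg, h0 (by rw [hxf1, hxf2]; exact hB)]
    simp

/-- The image in `GL₂(𝔸_K)` of a rational diagonal matrix commutes with the diagonal elements. -/
theorem ratG_diag_comm {γ : GL (Fin 2) K} {α : K}
    (hγ : (γ : Matrix (Fin 2) (Fin 2) K) = !![1, 0; 0, α]) (a b : (A0.Adl K)ˣ) :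
    ratG γ * dg a b = dg a b * ratG γ := by
  apply Units.ext
  have hr : ((ratG γ : A0.G K) : Matrix (Fin 2) (Fin 2) (A0.Adl K))
      = !![1, 0; 0, algebraMap K (A0.Adl K) α] := by
    change ((γ : Matrix (Fin 2) (Fin 2) K)).map (algebraMap K (A0.Adl K)) = _
    rw [hγ]
    ext i j
    fin_cases i <;> fin_cases j <;> simp
  rw [Units.val_mul, Units.val_mul, hr, dg_val]
  ext i j
  fin_cases i <;> fin_cases j <;> simp [Matrix.mul_apply, Fin.sum_univ_two, mul_comm]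

/-- Splitting of a sum at one index, indicator form. -/
theorem tsum_split904 {ι : Type} {f : ι → ℂ} (hf : Summable f) (b : ι) :
    ∑' x, f x = f b + ∑' x, Set.indicator {x : ι | x ≠ b} f x := by
  classical
  rw [hf.tsum_eq_add_tsum_ite b]
  congr 2
  funext x
  by_cases h : x = b
  · simp [h]
  · simp [h]

theorem ratV_zero : ratV (0 : K × K) = (0 : A0.Adl K × A0.Adl K) := by
  unfold ratV
  simp

/-- If `z a ω` lies in `GL₂(K) GL₂(𝔸_K)⁺`, `z`, `a` with determinants which are norms of scalars,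
then so does `ω`. -/
theorem inP_of_mul {t n : K} (ζ a : (A0.Adl K)ˣ) {ω : A0.G K} {γ : GL (Fin 2) K}
    (h : InGPlus t n (ratG γ * (cen ζ * (tSL a * ω)))) : InGPlus t n (ratG γ * ω) := by
  obtain ⟨m, hm, hdet⟩ := h
  refine ⟨cen ζ⁻¹ * m, inTorus_mul (inTorus_cen t n ζ⁻¹) hm, ?_⟩
  rw [map_mul, map_mul, map_mul, det_cen, det_tSL, one_mul] at hdet
  rw [map_mul, map_mul, det_cen, ← hdet]
  have : ∀ x y : (A0.Adl K)ˣ, x * y = ζ⁻¹ * ζ⁻¹ * (x * (ζ * ζ * y)) := by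
    intro x y
    rw [mul_left_comm x, ← mul_assoc (ζ⁻¹ * ζ⁻¹)]
    have : ζ⁻¹ * ζ⁻¹ * (ζ * ζ) = 1 := by
      rw [mul_mul_mul_comm]; simp
    rw [this, one_mul]
  exact this _ _

end Fermat.Agent.LT.A2.H904

end
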