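import Fermat.Agent.LT.A2.H904.LiftBddAlg

/-!
# Row LT, tower A2, leaf A2.03.4 `WL.LiftBddC`: the archimedean scalar ideles (helper904)

OFF-MAIN.  For a totally complex field: the idele `posId c` (`c ∈ ℂˣ` at every infinite place, `1`
at the finite places), its module, and the decomposition of the elements of the ray and of the
centre of `T1.SiegelCompactC`.
-/

set_option autoImplicit false

open IsDedekindDomain NumberField AutomorphicForm MeasureTheory
open scoped MatrixGroups Topology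

noncomputable section

namespace Fermat.Agent.LT.A2.H904

open Fermat.Agent.LT.H130 Fermat.Agent.LT.H556

variable {K : Type} [Field K] [NumberField K]

/-- The adele with component `c` at every (complex) infinite place and `1` at the finite places,
as a monoid homomorphism. -/
def posAdl (hcpx : ∀ u : InfinitePlace K, u.IsComplex) : ℂ →* A0.Adl K where
  toFun c := (fun w => (InfinitePlace.Completion.ringEquivComplexOfIsComplex (hcpx w)).symm c, 1)
  map_one' := by
    refine Prod.ext ?_ rfl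
    funext w
    change (InfinitePlace.Completion.ringEquivComplexOfIsComplex (hcpx w)).symm 1 = 1
    simp
  map_mul' c c' := by
    refine Prod.ext ?_ ?_
    · funext w
      change (InfinitePlace.Completion.ringEquivComplexOfIsComplex (hcpx w)).symm (c * c')
        = (InfinitePlace.Completion.ringEquivComplexOfIsComplex (hcpx w)).symm c
          * (InfinitePlace.Completion.ringEquivComplexOfIsComplex (hcpx w)).symm c'
      simp
    · change (1 : FiniteAdeleRing (𝓞 K) K) = 1 * 1
      simp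

/-- The idele `posId c`. -/
def posId (hcpx : ∀ u : InfinitePlace K, u.IsComplex) : ℂˣ →* (A0.Adl K)ˣ :=
  Units.map (posAdl hcpx)

theorem posId_fst (hcpx : ∀ u : InfinitePlace K, u.IsComplex) (c : ℂˣ) (w : InfinitePlace K) :
    InfinitePlace.Completion.extensionEmbedding w (((posId hcpx c : (A0.Adl K)ˣ) : A0.Adl K).1 w)
      = (c : ℂ) := by
  change InfinitePlace.Completion.extensionEmbedding w
    ((InfinitePlace.Completion.ringEquivComplexOfIsComplex (hcpx w)).symm (c : ℂ)) = _
  rw [← InfinitePlace.Completion.ringEquivComplexOfIsComplex_apply (hcpx w)]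
  simp

theorem posId_snd (hcpx : ∀ u : InfinitePlace K, u.IsComplex) (c : ℂˣ) :
    ((posId hcpx c : (A0.Adl K)ˣ) : A0.Adl K).2 = 1 := rfl

theorem norm_posId_fst (hcpx : ∀ u : InfinitePlace K, u.IsComplex) (c : ℂˣ)
    (w : InfinitePlace K) :
    ‖((posId hcpx c : (A0.Adl K)ˣ) : A0.Adl K).1 w‖ = ‖(c : ℂ)‖ := by
  rw [← posId_fst hcpx c w]
  exact ((InfinitePlace.Completion.isometry_extensionEmbedding w).norm_map_of_map_zero
    (map_zero _) _).symm

/-- The module of `posId c`. -/
theorem adNorm_posId (hcpx : ∀ u : InfinitePlace K, u.IsComplex) (c : ℂˣ) :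
    T1.adNorm K ((posId hcpx c : (A0.Adl K)ˣ) : A0.Adl K)
      = ‖(c : ℂ)‖ ^ (∑ w : InfinitePlace K, w.mult) := by
  unfold T1.adNorm
  have h2 : (∏ᶠ v : HeightOneSpectrum (𝓞 K),
      ‖((posId hcpx c : (A0.Adl K)ˣ) : A0.Adl K).2 v‖) = 1 := by
    rw [posId_snd]
    have : ∀ v : HeightOneSpectrum (𝓞 K),
        ‖(1 : FiniteAdeleRing (𝓞 K) K) v‖ = 1 := by
      intro v
      have : (1 : FiniteAdeleRing (𝓞 K) K) v = 1 := rfl
      rw [this]
      exact norm_one
    simp only [this]
    exact finprod_one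
  rw [h2, mul_one]
  simp only [norm_posId_fst]
  rw [Finset.prod_pow_eq_pow_sum]

/-! ## Extensionality for adeles -/

theorem adl_ext {x y : A0.Adl K}
    (h1 : ∀ w : InfinitePlace K, InfinitePlace.Completion.extensionEmbedding w (x.1 w)
      = InfinitePlace.Completion.extensionEmbedding w (y.1 w))
    (h2 : ∀ v : HeightOneSpectrum (𝓞 K), x.2 v = y.2 v) : x = y := by
  refine Prod.ext ?_ ?_
  · funext w
    exact (InfinitePlace.Completion.extensionEmbedding w).injective (h1 w)
  · exact RestrictedProduct.ext _ _ h2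

/-- A central element of `GL₂(𝔸_K)` is `cen c` for an idele `c`. -/
theorem exists_cen_of_isCentral {z : A0.G K} (hz : T1.IsCentral K z) :
    ∃ c : (A0.Adl K)ˣ, z = cen c := by
  obtain ⟨c, hc⟩ := hz
  have h1 : c * ((z⁻¹ : A0.G K) : Matrix (Fin 2) (Fin 2) (A0.Adl K)) 0 0 = 1 := by
    have := congrArg (fun M : Matrix (Fin 2) (Fin 2) (A0.Adl K) => M 0 0)
      (congrArg Units.val (mul_inv_cancel z))
    simp only [Units.val_mul, hc] at this
    simpa [Matrix.mul_apply, Fin.sum_univ_two] using this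
  refine ⟨⟨c, ((z⁻¹ : A0.G K) : Matrix (Fin 2) (Fin 2) (A0.Adl K)) 0 0, h1,
    by rw [mul_comm]; exact h1⟩, ?_⟩
  apply Units.ext
  rw [hc, cen, dg_val]
  ext i j
  fin_cases i <;> fin_cases j <;> simp

/-- The positive real `σ` as a unit of `ℂ`. -/
def posUnit (σ : ℝ) (hσ : 0 < σ) : ℂˣ :=
  Units.mk0 ((σ : ℝ) : ℂ) (by exact_mod_cast hσ.ne')

theorem norm_posUnit (σ : ℝ) (hσ : 0 < σ) : ‖((posUnit σ hσ : ℂˣ) : ℂ)‖ = σ := by
  simp [posUnit, abs_of_pos hσ]

/-- An element of the ray of `T1.SiegelCompactC` is `t(σ) · σ`, `σ = √s`. -/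
theorem isRay_eq (hcpx : ∀ u : InfinitePlace K, u.IsComplex) {a : A0.G K} {s : ℝ}
    (ha : T1.IsRay K a s) (hs : 0 < s) :
    a = tSL (posId hcpx (posUnit (Real.sqrt s) (Real.sqrt_pos.mpr hs)))
      * cen (posId hcpx (posUnit (Real.sqrt s) (Real.sqrt_pos.mpr hs))) := by
  set σU := posId hcpx (posUnit (Real.sqrt s) (Real.sqrt_pos.mpr hs)) with hσU
  obtain ⟨hfin, hinf⟩ := ha
  have hI : ∀ (w : InfinitePlace K) (i j : Fin 2),
      InfinitePlace.Completion.extensionEmbedding w
        (((a : Matrix (Fin 2) (Fin 2) (A0.Adl K)) i j).1 w)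
        = (!![(s : ℂ), 0; 0, 1] : Matrix (Fin 2) (Fin 2) ℂ) i j := by
    intro w i j
    have := congrArg (fun M : Matrix (Fin 2) (Fin 2) ℂ => M i j) (hinf w)
    exact this
  have hF : ∀ (v : HeightOneSpectrum (𝓞 K)) (i j : Fin 2),
      ((a : Matrix (Fin 2) (Fin 2) (A0.Adl K)) i j).2 v
        = (1 : Matrix (Fin 2) (Fin 2) (v.adicCompletion K)) i j := by
    intro v i j
    have := congrArg (fun M : Matrix (Fin 2) (Fin 2) (v.adicCompletion K) => M i j) (hfin v)
    exact this
  have hσ1 : ∀ w : InfinitePlace K, InfinitePlace.Completion.extensionEmbedding w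
      (((σU : (A0.Adl K)ˣ) : A0.Adl K).1 w) = ((Real.sqrt s : ℝ) : ℂ) := by
    intro w
    rw [hσU, posId_fst]
    rfl
  have hσ2 : ((σU : (A0.Adl K)ˣ) : A0.Adl K).2 = 1 := posId_snd hcpx _
  have h00 : (a : Matrix (Fin 2) (Fin 2) (A0.Adl K)) 0 0 = ((σU * σU : (A0.Adl K)ˣ) : A0.Adl K) := by
    apply adl_ext
    · intro w
      rw [hI w 0 0]
      have : ((((σU * σU : (A0.Adl K)ˣ) : A0.Adl K)).1 w)
          = ((σU : (A0.Adl K)ˣ) : A0.Adl K).1 w * ((σU : (A0.Adl K)ˣ) : A0.Adl K).1 w := rfl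
      rw [this, map_mul, hσ1 w, ← Complex.ofReal_mul, Real.mul_self_sqrt hs.le]
      simp
    · intro v
      rw [hF v 0 0]
      have : ((((σU * σU : (A0.Adl K)ˣ) : A0.Adl K)).2 v)
          = ((σU : (A0.Adl K)ˣ) : A0.Adl K).2 v * ((σU : (A0.Adl K)ˣ) : A0.Adl K).2 v := rfl
      rw [this, hσ2]
      change (1 : Matrix (Fin 2) (Fin 2) (v.adicCompletion K)) 0 0 = (1 : v.adicCompletion K) * 1
      simp
  have h01 : (a : Matrix (Fin 2) (Fin 2) (A0.Adl K)) 0 1 = 0 := by
    apply adl_ext
    · intro w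
      rw [hI w 0 1]
      change _ = InfinitePlace.Completion.extensionEmbedding w 0
      simp
    · intro v
      rw [hF v 0 1]
      change (1 : Matrix (Fin 2) (Fin 2) (v.adicCompletion K)) 0 1 = (0 : v.adicCompletion K)
      simp
  have h10 : (a : Matrix (Fin 2) (Fin 2) (A0.Adl K)) 1 0 = 0 := by
    apply adl_ext
    · intro w
      rw [hI w 1 0]
      change _ = InfinitePlace.Completion.extensionEmbedding w 0
      simp
    · intro v
      rw [hF v 1 0]
      change (1 : Matrix (Fin 2) (Fin 2) (v.adicCompletion K)) 1 0 = (0 : v.adicCompletion K)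
      simp
  have h11 : (a : Matrix (Fin 2) (Fin 2) (A0.Adl K)) 1 1 = 1 := by
    apply adl_ext
    · intro w
      rw [hI w 1 1]
      change _ = InfinitePlace.Completion.extensionEmbedding w 1
      simp
    · intro v
      rw [hF v 1 1]
      change (1 : Matrix (Fin 2) (Fin 2) (v.adicCompletion K)) 1 1 = (1 : v.adicCompletion K)
      simp
  rw [tSL, cen, dg_mul]
  apply Units.ext
  rw [dg_val, Matrix.eta_fin_two (a : Matrix (Fin 2) (Fin 2) (A0.Adl K)), h00, h01, h10, h11]
  simp

end Fermat.Agent.LT.A2.H904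

end
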