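import Fermat.Agent.LT.A2.H904.LiftBddElem

/-!
# Row LT, tower A2, leaf A2.03.4 `WL.LiftBddC`: the scaling formulas (helper904)

OFF-MAIN.  From the certificate `WL.IsStd`: the Weil family under central elements and under
`t(a) = diag(a, a⁻¹)`;  `‖η‖ = 1`, `‖χT‖ = 1` on the torus.
-/

set_option autoImplicit false

open IsDedekindDomain NumberField AutomorphicForm MeasureTheory
open scoped MatrixGroups Topology

noncomputable section

namespace Fermat.Agent.LT.A2.H904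

open Fermat.Agent.LT.H130 Fermat.Agent.LT.H556

variable {K : Type} [Field K] [NumberField K]

theorem norm_eta_eq_one {t n : K} {η : (A0.Adl K)ˣ → ℂ} (hq : WL.IsQuadChar t n η)
    (a : (A0.Adl K)ˣ) : ‖η a‖ = 1 := by
  rcases hq.sq a with h | h <;> simp [h]

theorem norm_chiT_eq_one {t n : K} {χT : A0.G K → ℂ} (hχ : IsTorusChar t n χT) {m : A0.G K}
    (hm : InTorus t n m) : ‖χT m‖ = 1 := by
  obtain ⟨k, hk, h⟩ := hχ.fin_order
  have h2 : ‖χT m‖ ^ k = 1 := by rw [← norm_pow, h m hm, norm_one]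
  exact (pow_eq_one_iff_of_nonneg (norm_nonneg _) hk.ne').mp h2

theorem adm_tSL {t n : K} {g m : A0.G K} (a : (A0.Adl K)ˣ) (hadm : Adm t n g m) :
    Adm t n (tSL a * g) m :=
  ⟨hadm.1, by rw [map_mul, det_tSL, one_mul, hadm.2]⟩

theorem adm_cen {t n : K} {g m : A0.G K} (c : (A0.Adl K)ˣ) (hadm : Adm t n g m) :
    Adm t n (cen c * g) (cen c * m) :=
  ⟨inTorus_mul (inTorus_cen t n c) hadm.1, by rw [map_mul, map_mul, hadm.2]⟩

theorem adm_torus1 {t n : K} {g m m' : A0.G K} (hm' : InTorus1 t n m') (hadm : Adm t n g m) :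
    Adm t n g (m' * m) :=
  ⟨inTorus_mul hm'.1 hadm.1, by rw [map_mul, hm'.2, one_mul, hadm.2]⟩

/-- The Weil family under `t(a)`. -/
theorem F_tSL (D : KData K) (η : (A0.Adl K)ˣ → ℂ) (hstd : WL.IsStd D η) (a : (A0.Adl K)ˣ)
    (g m : A0.G K) (ξ : A0.Adl K × A0.Adl K) (hadm : Adm D.t D.n g m) :
    D.F (tSL a * g) m ξ
      = η a * ((T1.adNorm K (a : A0.Adl K) : ℝ) : ℂ) * D.F g m ((a : A0.Adl K) • ξ) :=
  hstd.diagA (tSL a) a (isDiagSLA_tSL a) g m ξ hadm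

/-- The Weil family under the centre: the central character is `η`. -/
theorem F_cen (D : KData K) (η : (A0.Adl K)ˣ → ℂ) (hstd : WL.IsStd D η) (hN : T1.AdNormC K)
    (c : (A0.Adl K)ˣ) (g m : A0.G K) (ξ : A0.Adl K × A0.Adl K) (hadm : Adm D.t D.n g m) :
    D.F (cen c * g) (cen c * m) ξ = η c * D.F g m ξ := by
  have hadm1 : Adm D.t D.n (dOne (c * c) * g) (cen c * m) :=
    ⟨inTorus_mul (inTorus_cen _ _ c) hadm.1, by
      rw [map_mul, map_mul, det_dOne, det_cen, hadm.2]⟩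
  have h1 := hstd.diagA (tSL c) c (isDiagSLA_tSL c) (dOne (c * c) * g) (cen c * m) ξ hadm1
  have hd : WL.IsDiagOneA (dOne (c * c)) (Matrix.GeneralLinearGroup.det (cen c)) := by
    rw [det_cen]; exact isDiagOneA_dOne _
  have h2 := hstd.torA (cen c) (dOne (c * c)) (inTorus_cen _ _ c) hd g m
    ((c : A0.Adl K) • ξ) hadm
  rw [actV_cen_inv_smul, det_cen] at h2
  have hpos : 0 < T1.adNorm K (c : A0.Adl K) := hN.1 c
  have hsq : Real.sqrt (T1.adNorm K (((c * c : (A0.Adl K)ˣ)) : A0.Adl K))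
      = T1.adNorm K (c : A0.Adl K) := by
    rw [hN.2.1 c c, Real.sqrt_mul_self hpos.le]
  rw [hsq] at h2
  have hne : ((T1.adNorm K (c : A0.Adl K) : ℝ) : ℂ) ≠ 0 := by
    exact_mod_cast hpos.ne'
  have hg : cen c * g = tSL c * (dOne (c * c) * g) := by rw [cen_eq, mul_assoc]
  rw [hg, h1, mul_assoc, h2]

/-- The Weil family under `z t(a)`, `z` central. -/
theorem F_scale (D : KData K) (η : (A0.Adl K)ˣ → ℂ) (hstd : WL.IsStd D η) (hN : T1.AdNormC K)
    (ζ a : (A0.Adl K)ˣ) (g m : A0.G K) (ξ : A0.Adl K × A0.Adl K) (hadm : Adm D.t D.n g m) :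
    D.F (cen ζ * (tSL a * g)) (cen ζ * m) ξ
      = η ζ * (η a * ((T1.adNorm K (a : A0.Adl K) : ℝ) : ℂ) * D.F g m ((a : A0.Adl K) • ξ)) := by
  rw [F_cen D η hstd hN ζ (tSL a * g) m ξ (adm_tSL a hadm), F_tSL D η hstd a g m ξ hadm]

theorem norm_F_scale (D : KData K) (η : (A0.Adl K)ˣ → ℂ) (hstd : WL.IsStd D η)
    (hN : T1.AdNormC K)
    (ζ a : (A0.Adl K)ˣ) (g m : A0.G K) (ξ : A0.Adl K × A0.Adl K) (hadm : Adm D.t D.n g m) :
    ‖D.F (cen ζ * (tSL a * g)) (cen ζ * m) ξ‖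
      = T1.adNorm K (a : A0.Adl K) * ‖D.F g m ((a : A0.Adl K) • ξ)‖ := by
  rw [F_scale D η hstd hN ζ a g m ξ hadm, norm_mul, norm_mul, norm_mul,
    norm_eta_eq_one hstd.quad, norm_eta_eq_one hstd.quad, one_mul, one_mul,
    Complex.norm_real, Real.norm_of_nonneg (hN.1 a).le]

end Fermat.Agent.LT.A2.H904

end
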