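import Fermat.Agent.LT.A2.H904.LiftBddAux

/-!
# Row LT, tower A2, leaf A2.03.4 `WL.LiftBddC`: THE TOP (helper904)

OFF-MAIN.  `liftBdd_of_leaves : AdmCompactC → GaussSumC → CharIntZeroC → WL.LiftBddC`.
-/

set_option autoImplicit false
set_option linter.style.haveILetI false

open IsDedekindDomain NumberField AutomorphicForm MeasureTheory
open scoped MatrixGroups Topology

noncomputable section

namespace Fermat.Agent.LT.A2.H904

open Fermat.Agent.LT.H130 Fermat.Agent.LT.H556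

variable {K : Type} [Field K] [NumberField K]

/-- The bound of the theta lift at one point of the Siegel set, in terms of the data of the
compact set of pairs. -/
theorem lift_bound_at (hcpx : ∀ u : InfinitePlace K, u.IsComplex) (D : KData K)
    (η : (A0.Adl K)ˣ → ℂ) (hT1 : T1.T1Out K) (hgood : D.Good) (hstd : WL.IsStd D η)
    (hCI : (letI : MeasurableSpace (A0.G K) := borel (A0.G K)
      IntegrableOn D.χT D.DT D.μT) ∧ D.intT D.DT D.χT = 0)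
    (φ : A0.G K → ℂ) (hφ : D.IsLift φ)
    {C' : Set (A0.G K × A0.G K)}
    {B : Set (FiniteAdeleRing (𝓞 K) K × FiniteAdeleRing (𝓞 K) K)} {A δ : ℝ}
    (hdec : ∀ p : A0.G K × A0.G K, p ∈ C' → Adm D.t D.n p.1 p.2 → ∀ ξ : A0.Adl K × A0.Adl K,
        ((ξ.1.2, ξ.2.2) ∉ B → D.F p.1 p.2 ξ = 0) ∧
        ‖D.F p.1 p.2 ξ‖
          ≤ A * Real.exp (-δ * ∑ w : InfinitePlace K, (‖ξ.1.1 w‖ ^ 2 + ‖ξ.2.1 w‖ ^ 2)))
    {C₁ : ℝ} (σ : ℝ) (hσ : 0 < σ)
    (hsum : Summable (gaussT B δ σ))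
    (hle : σ ^ (∑ w : InfinitePlace K, w.mult)
      * ∑' ξ : K × K, Set.indicator {ξ : K × K | ξ ≠ 0} (gaussT B δ σ) ξ ≤ C₁)
    (ζ : (A0.Adl K)ˣ) (g₁ m₁ : A0.G K) (hadm : Adm D.t D.n g₁ m₁)
    (hmem : ∀ m ∈ D.DT, (g₁, m * m₁) ∈ C') :
    ‖φ (cen ζ * (tSL (posId hcpx (posUnit σ hσ)) * g₁))‖
      ≤ |A| * C₁ * (letI : MeasurableSpace (A0.G K) := borel (A0.G K)
          D.μT.real D.DT) := by
  letI : MeasurableSpace (A0.G K) := borel (A0.G K)
  haveI : BorelSpace (A0.G K) := ⟨rfl⟩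
  set N := ∑ w : InfinitePlace K, w.mult with hN
  set σU := posId hcpx (posUnit σ hσ) with hσU
  set g₂ := cen ζ * (tSL σU * g₁) with hg₂
  set mg₂ := cen ζ * m₁ with hmg₂
  have hadm₂ : Adm D.t D.n g₂ mg₂ := adm_cen ζ (adm_tSL σU hadm)
  have hadN : T1.adNorm K ((σU : (A0.Adl K)ˣ) : A0.Adl K) = σ ^ N := by
    rw [hσU, adNorm_posId, norm_posUnit]
  have hDT1 : ∀ m ∈ D.DT, InTorus1 D.t D.n m := hgood.measured.dom_sub
  -- the pointwise bound of the terms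
  have key1 : ∀ m ∈ D.DT, ∀ ξ : K × K,
      ‖D.F g₂ (m * mg₂) (ratV ξ)‖ ≤ σ ^ N * (|A| * gaussT B δ σ ξ) := by
    intro m hm ξ
    have hmm : m * mg₂ = cen ζ * (m * m₁) := by
      rw [hmg₂, ← mul_assoc, ← cen_comm, mul_assoc]
    have hadm' : Adm D.t D.n g₁ (m * m₁) := adm_torus1 (hDT1 m hm) hadm
    rw [hmm, hg₂, norm_F_scale D η hstd hT1.adNorm ζ σU g₁ (m * m₁) (ratV ξ) hadm', hadN]
    refine mul_le_mul_of_nonneg_left ?_ (pow_nonneg hσ.le _)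
    exact gauss_le hcpx D (hdec (g₁, m * m₁) (hmem m hm) hadm') σ hσ ξ
  -- the term `ξ = 0`
  set c₀ := D.F g₂ mg₂ 0 with hc₀
  have key2 : ∀ m ∈ D.DT, D.F g₂ (m * mg₂) (ratV 0) = c₀ := by
    intro m hm
    rw [ratV_zero, hgood.weil.tor1 m (hDT1 m hm) g₂ mg₂ 0 hadm₂, actV_zero]
  -- the remainder
  set R : A0.G K → ℂ := fun m =>
    ∑' ξ : K × K, Set.indicator {ξ : K × K | ξ ≠ 0} (fun ξ => D.F g₂ (m * mg₂) (ratV ξ)) ξ
    with hR
  have hsum' : Summable (fun ξ : K × K => σ ^ N * (|A| * gaussT B δ σ ξ)) :=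
    (hsum.mul_left |A|).mul_left (σ ^ N)
  have hgnn : ∀ ξ : K × K, 0 ≤ gaussT B δ σ ξ := by
    intro ξ
    unfold gaussT
    exact Set.indicator_nonneg (fun _ _ => (Real.exp_pos _).le) _
  have hC₁ : 0 ≤ C₁ := by
    refine le_trans ?_ hle
    refine mul_nonneg (pow_nonneg hσ.le _) (tsum_nonneg fun ξ => ?_)
    exact Set.indicator_nonneg (fun _ _ => hgnn _) _
  have key3 : ∀ m ∈ D.DT, D.theta g₂ (m * mg₂) = c₀ + R m := by
    intro m hm
    have hs : Summable (fun ξ : K × K => D.F g₂ (m * mg₂) (ratV ξ)) :=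
      Summable.of_norm_bounded hsum' (key1 m hm)
    unfold KData.theta
    rw [tsum_split904 hs 0, key2 m hm]
  have key4 : ∀ m ∈ D.DT, ‖R m‖ ≤ |A| * C₁ := by
    intro m hm
    have hs0 : Summable (Set.indicator {ξ : K × K | ξ ≠ 0} (gaussT B δ σ)) :=
      hsum.indicator _
    have hHS : HasSum (fun ξ : K × K => σ ^ N * (|A| *
        Set.indicator {ξ : K × K | ξ ≠ 0} (gaussT B δ σ) ξ))
        (σ ^ N * (|A| * ∑' ξ : K × K, Set.indicator {ξ : K × K | ξ ≠ 0} (gaussT B δ σ) ξ)) :=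
      (hs0.hasSum.mul_left |A|).mul_left (σ ^ N)
    have hb := tsum_of_norm_bounded hHS (f := fun ξ : K × K =>
      Set.indicator {ξ : K × K | ξ ≠ 0} (fun ξ => D.F g₂ (m * mg₂) (ratV ξ)) ξ) (by
        intro ξ
        by_cases h : ξ = 0
        · simp [h]
        · rw [Set.indicator_of_mem (by exact h), Set.indicator_of_mem (by exact h)]
          exact key1 m hm ξ)
    refine le_trans hb ?_
    calc σ ^ N * (|A| * ∑' ξ : K × K, Set.indicator {ξ : K × K | ξ ≠ 0} (gaussT B δ σ) ξ)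
        = |A| * (σ ^ N * ∑' ξ : K × K, Set.indicator {ξ : K × K | ξ ≠ 0} (gaussT B δ σ) ξ) := by
          ring
      _ ≤ |A| * C₁ := mul_le_mul_of_nonneg_left hle (abs_nonneg A)
  -- the integral
  rw [hφ.formula g₂ mg₂ hadm₂]
  unfold KData.intT
  have hTmg : InTorus D.t D.n mg₂ := hadm₂.1
  set h : A0.G K → ℂ := fun m => D.theta g₂ (m * mg₂) * D.χT (m * mg₂) with hh
  set h₁ : A0.G K → ℂ := fun m => c₀ * D.χT mg₂ * D.χT m with hh₁
  have hh₁int : IntegrableOn h₁ D.DT D.μT := hCI.1.const_mul _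
  have hh₁zero : ∫ m in D.DT, h₁ m ∂D.μT = 0 := by
    have h0 : ∫ m in D.DT, D.χT m ∂D.μT = 0 := hCI.2
    rw [hh₁]
    rw [integral_const_mul, h0, mul_zero]
  have hμ : D.μT D.DT < ⊤ := by
    obtain ⟨CT, hCT, hsub⟩ := hgood.measured.dom_compact
    exact lt_of_le_of_lt (measure_mono hsub) (hgood.measured.compact_lt CT hCT)
  have hdiff : ∀ m ∈ D.DT, ‖h m - h₁ m‖ ≤ |A| * C₁ := by
    intro m hm
    have hχ : D.χT (m * mg₂) = D.χT m * D.χT mg₂ :=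
      hgood.torus.mul m mg₂ (hDT1 m hm).1 hTmg
    have e : h m - h₁ m = R m * D.χT (m * mg₂) := by
      rw [hh, hh₁]
      simp only
      rw [key3 m hm, hχ]
      ring
    rw [e, norm_mul, norm_chiT_eq_one hgood.torus (inTorus_mul (hDT1 m hm).1 hTmg), mul_one]
    exact key4 m hm
  by_cases hi : IntegrableOn h D.DT D.μT
  · have e : ∫ m in D.DT, h m ∂D.μT = ∫ m in D.DT, (h m - h₁ m) ∂D.μT := by
      rw [integral_sub hi hh₁int, hh₁zero, sub_zero]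
    rw [e]
    exact norm_setIntegral_le_of_norm_le_const hμ hdiff
  · rw [integral_undef hi, norm_zero]
    exact mul_nonneg (mul_nonneg (abs_nonneg A) hC₁) measureReal_nonneg

/-- **THE TOP of the cut of A2.03.4**: the theta lift of standard good data is bounded. -/
theorem liftBdd_of_leaves (hAC : AdmCompactC) (hGS : GaussSumC) (hCI : CharIntZeroC) :
    WL.LiftBddC := by
  intro hopen K _ _ D η hcpx hT1 hgood hstd φ hφ
  letI : MeasurableSpace (A0.G K) := borel (A0.G K)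
  obtain ⟨c, hc, hred⟩ := hT1.reduction
  obtain ⟨Ω, m₀, M₀, hΩ, hm₀, -, hsieg⟩ := hT1.siegelCompact c hc
  obtain ⟨C, hC, hCprop⟩ := hAC hopen K D.t D.n hgood.torus.irred hT1.locComp Ω hΩ
  obtain ⟨CT, hCT, hDTsub⟩ := hgood.measured.dom_compact
  set C' : Set (A0.G K × A0.G K) :=
    (fun q : (A0.G K × A0.G K) × A0.G K => (q.1.1, q.2 * q.1.2)) '' (C ×ˢ CT) with hC'def
  have hC' : IsCompact C' := (hC.prod hCT).image (by fun_prop)
  obtain ⟨B, A, δ, hB, hδ, hdec⟩ := hstd.decay C' hC'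
  set s₀ := min 1 (m₀ * c) with hs₀
  have hs₀pos : 0 < s₀ := lt_min one_pos (mul_pos hm₀ hc)
  set σ₀ := Real.sqrt s₀ with hσ₀def
  have hσ₀ : 0 < σ₀ := Real.sqrt_pos.mpr hs₀pos
  obtain ⟨C₁, hC₁⟩ := hGS K B hB (∑ w : InfinitePlace K, w.mult) δ σ₀ hδ hσ₀
  have hCIK := hCI K D hT1.locComp hgood
  refine ⟨|A| * C₁ * D.μT.real D.DT, fun g => ?_⟩
  have hC₁nn : 0 ≤ C₁ := by
    refine le_trans ?_ (hC₁ σ₀ le_rfl).2
    refine mul_nonneg (pow_nonneg hσ₀.le _) (tsum_nonneg fun ξ => ?_)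
    refine Set.indicator_nonneg (fun ξ _ => ?_) _
    unfold gaussT
    exact Set.indicator_nonneg (fun _ _ => (Real.exp_pos _).le) _
  have hnn : 0 ≤ |A| * C₁ * D.μT.real D.DT :=
    mul_nonneg (mul_nonneg (abs_nonneg A) hC₁nn) measureReal_nonneg
  obtain ⟨γ₀, t₀, hH, hct⟩ := hred g
  obtain ⟨β, z, a, ω, s, hβ, hz, hs, ha, hω, hdecomp, hms, -⟩ :=
    hsieg (T1.ratG K γ₀ * g) t₀ hH hct
  obtain ⟨cU, rfl⟩ := exists_cen_of_isCentral hz
  have ha' := isRay_eq hcpx ha hs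
  set σ := Real.sqrt s with hσdef
  have hσpos : 0 < σ := Real.sqrt_pos.mpr hs
  set σU := posId hcpx (posUnit σ hσpos) with hσU
  have hss : s₀ ≤ s := by
    have h1 : m₀ * c ≤ s ^ Module.finrank ℚ K :=
      le_trans (mul_le_mul_of_nonneg_left hct hm₀.le) hms
    by_cases h : 1 ≤ s
    · exact le_trans (min_le_left _ _) h
    · rw [not_le] at h
      have : s ^ Module.finrank ℚ K ≤ s :=
        pow_le_of_le_one hs.le h.le (Module.finrank_pos).ne'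
      exact le_trans (min_le_right _ _) (le_trans h1 this)
  have hσσ₀ : σ₀ ≤ σ := Real.sqrt_le_sqrt hss
  have e1 : cen cU * a * ω = cen (cU * σU) * (tSL σU * ω) := by
    rw [ha', ← cen_comm σU (tSL σU), ← mul_assoc (cen cU), cen_mul, mul_assoc]
  have hφg : φ g = φ (cen (cU * σU) * (tSL σU * ω)) := by
    rw [← e1, ← hφ.left_inv γ₀ g]
    have : ratG γ₀ * g = ratG β * (cen cU * a * ω) := by
      change T1.ratG K γ₀ * g = T1.ratG K β * (cen cU * a * ω)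
      rw [hdecomp]
      simp only [mul_assoc]
    rw [this, hφ.left_inv β]
  rw [hφg]
  by_cases hP : ∃ γ : GL (Fin 2) K,
      InGPlus D.t D.n (ratG γ * (cen (cU * σU) * (tSL σU * ω)))
  swap
  · rw [hφ.off _ (fun γ hγ => hP ⟨γ, hγ⟩), norm_zero]
    exact hnn
  obtain ⟨γ, hγ⟩ := hP
  have hPω : ∃ γ : GL (Fin 2) K, InGPlus D.t D.n (ratG γ * ω) := ⟨γ, inP_of_mul _ _ hγ⟩
  obtain ⟨α, γ₁, m₁, hγ₁, hadm₁, hmem₁⟩ := hCprop ω hω hPω
  have e2 : ratG γ₁ * (cen (cU * σU) * (tSL σU * ω))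
      = cen (cU * σU) * (tSL σU * (ratG γ₁ * ω)) := by
    rw [← mul_assoc, ← cen_comm, mul_assoc]
    congr 1
    rw [← mul_assoc, tSL, ratG_diag_comm hγ₁, mul_assoc]
  rw [← hφ.left_inv γ₁, e2]
  refine lift_bound_at hcpx D η hT1 hgood hstd hCIK φ hφ hdec σ hσpos (hC₁ σ hσσ₀).1
    (hC₁ σ hσσ₀).2 (cU * σU) (ratG γ₁ * ω) m₁ hadm₁ ?_
  intro m hm
  exact ⟨((ratG γ₁ * ω, m₁), m), ⟨hmem₁, hDTsub hm⟩, rfl⟩

end Fermat.Agent.LT.A2.H904

end
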